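import Fermat.Agent.CycloGrowth.ZetaStrip
import Mathlib.Analysis.SpecialFunctions.Integrals.PosLogEqCircleAverage
import Mathlib.Analysis.SpecialFunctions.Trigonometric.ArctanDeriv

/-!
# The half plane `re s > 1/2` as a disc

`s = 1 / (1 - z)` carries the unit disc onto `re s > 1/2` and `z = exp (i θ)` to `1/2 + i t` with
`dθ = dt / (1/4 + t²)`. On the closed disc `1 + |s| ≤ 4 / |exp (i θ) - 1|` for `|z| ≥ 1/4`.
-/

set_option autoImplicit false

noncomputable section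

open MeasureTheory Filter Set Complex
open scoped Real

namespace FA.BalazardSaiasYor

/-- The measure of the circle. -/
def circ : Measure ℝ := volume.restrict (Ioc 0 (2 * π))

/-- `1 / (1 - z)`. -/
def toHalf (z : ℂ) : ℂ := (1 - z)⁻¹

/-- The boundary point of angle `θ`. -/
def bd (θ : ℝ) : ℂ := toHalf (circleMap 0 1 θ)

/-- The singular part `-log |exp (i θ) - 1|`. -/
def sing (θ : ℝ) : ℝ := -Real.log ‖circleMap 0 1 θ - 1‖

theorem integrable_sing : Integrable sing circ := by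
  have h := circleIntegrable_log_norm_sub_const (a := (1 : ℂ)) (c := 0) 1
  rw [CircleIntegrable, intervalIntegrable_iff_integrableOn_Ioc_of_le
    (by positivity : (0 : ℝ) ≤ 2 * π)] at h
  exact h.neg

theorem integral_sing : ∫ θ, sing θ ∂circ = 0 := by
  have h := circleAverage_log_norm_sub_const₁ (a := (1 : ℂ)) norm_one
  rw [Real.circleAverage_def, smul_eq_mul, mul_eq_zero,
    intervalIntegral.integral_of_le (by positivity : (0 : ℝ) ≤ 2 * π)] at h
  simp only [sing]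
  rw [circ, integral_neg, h.resolve_left (by positivity), neg_zero]

theorem ae_ne : ∀ᵐ θ ∂circ, θ ∈ Ioo 0 (2 * π) := by
  rw [circ, ← restrict_Ioo_eq_restrict_Ioc]
  exact ae_restrict_mem measurableSet_Ioo

theorem circle_ne_one {θ : ℝ} (hθ : θ ∈ Ioo 0 (2 * π)) : circleMap 0 1 θ ≠ 1 := by
  intro h
  have h0 : circleMap (0 : ℂ) 1 θ = circleMap 0 1 0 := by rw [h]; simp [circleMap]
  have := injOn_circleMap_of_abs_sub_le' (a := 0) (b := 2 * π) one_ne_zero (by simp)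
    ⟨hθ.1.le, hθ.2⟩ ⟨le_rfl, by positivity⟩ h0
  linarith [hθ.1]

theorem norm_sub_one_le (θ : ℝ) : ‖circleMap 0 1 θ - 1‖ ≤ 2 := by
  refine (norm_sub_le _ _).trans ?_
  rw [norm_circleMap_zero, abs_one, norm_one]
  norm_num

theorem re_toHalf {z : ℂ} (h1 : z ≠ 1) :
    (toHalf z).re = 1 / 2 + (1 - ‖z‖ ^ 2) / (2 * ‖1 - z‖ ^ 2) := by
  have h : normSq (1 - z) ≠ 0 := fun h => h1 (sub_eq_zero.1 (normSq_eq_zero.1 h)).symm
  rw [toHalf, inv_re, Complex.sq_norm, Complex.sq_norm]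
  field_simp
  simp only [normSq_apply, sub_re, sub_im, one_re, one_im]
  ring

theorem half_le_re {z : ℂ} (hz : ‖z‖ ≤ 1) (h1 : z ≠ 1) : 1 / 2 ≤ (toHalf z).re := by
  rw [re_toHalf h1]
  exact le_add_of_nonneg_right (div_nonneg (by nlinarith [norm_nonneg z]) (by positivity))

theorem half_lt_re {z : ℂ} (hz : ‖z‖ < 1) : 1 / 2 < (toHalf z).re := by
  have h1 : z ≠ 1 := fun h => by rw [h, norm_one] at hz; exact lt_irrefl _ hz
  rw [re_toHalf h1]
  have := norm_pos_iff.2 (sub_ne_zero.2 (Ne.symm h1))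
  exact lt_add_of_pos_right _ (div_pos (by nlinarith [norm_nonneg z]) (by positivity))

theorem bd_re {θ : ℝ} (hθ : θ ∈ Ioo 0 (2 * π)) : (bd θ).re = 1 / 2 := by
  rw [bd, re_toHalf (circle_ne_one hθ), norm_circleMap_zero, abs_one]
  ring

theorem bd_eq {θ : ℝ} (hθ : θ ∈ Ioo 0 (2 * π)) : bd θ = 1 / 2 + ((bd θ).im : ℝ) * I :=
  Complex.ext (by simp [bd_re hθ]) (by simp)

theorem norm_sub_bd_one (θ : ℝ) (hθ : θ ∈ Ioo 0 (2 * π)) :
    Real.log ‖bd θ - 1‖ = sing θ := by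
  have h : (1 : ℂ) - circleMap 0 1 θ ≠ 0 := sub_ne_zero.2 (circle_ne_one hθ).symm
  rw [bd, toHalf, sing, show (1 - circleMap 0 1 θ)⁻¹ - 1 =
    circleMap 0 1 θ * (1 - circleMap 0 1 θ)⁻¹ by field_simp; ring, norm_mul, norm_circleMap_zero,
    abs_one, one_mul, norm_inv, Real.log_inv, norm_sub_rev]

/-- The circle of radius `r` stays away from `1` as much as the unit circle. -/
theorem half_norm_le {r : ℝ} (hr : 1 / 4 ≤ r) (θ : ℝ) :
    ‖circleMap 0 1 θ - 1‖ / 2 ≤ ‖1 - circleMap 0 r θ‖ := by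
  have e : circleMap (0 : ℂ) r θ = r * circleMap 0 1 θ := by simp [circleMap]
  have h : ‖circleMap 0 1 θ - 1‖ ^ 2 / 4 ≤ ‖1 - circleMap 0 r θ‖ ^ 2 := by
    have hu : normSq (circleMap 0 1 θ) = 1 := by
      rw [← Complex.sq_norm, norm_circleMap_zero]; norm_num
    rw [e, Complex.sq_norm, Complex.sq_norm]
    simp only [normSq_apply, sub_re, sub_im, mul_re, mul_im, one_re, one_im, ofReal_re,
      ofReal_im] at hu ⊢
    nlinarith [sq_nonneg (1 - r), sq_nonneg ((circleMap 0 1 θ).re - 1),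
      sq_nonneg (circleMap 0 1 θ).im]
  refine pow_le_pow_iff_left₀ (by positivity) (norm_nonneg _) two_ne_zero |>.1 ?_
  rw [div_pow]
  norm_num
  exact h

theorem log_one_add_le {r : ℝ} (hr : 1 / 4 ≤ r) {θ : ℝ}
    (hθ : θ ∈ Ioo 0 (2 * π)) {ε : ℝ} (h0 : 0 ≤ ε) (h1 : ε ≤ 1) :
    Real.log (1 + ‖toHalf (circleMap 0 r θ) + ε‖) ≤ Real.log 8 + sing θ := by
  obtain ⟨d, hd⟩ : ∃ d, d = ‖circleMap 0 1 θ - 1‖ := ⟨_, rfl⟩
  have hd0 : 0 < d := hd ▸ norm_pos_iff.2 (sub_ne_zero.2 (circle_ne_one hθ))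
  have hd2 : d ≤ 2 := hd ▸ norm_sub_one_le θ
  have hle : ‖toHalf (circleMap 0 r θ)‖ ≤ 2 / d := by
    rw [toHalf, norm_inv, ← one_div]
    refine (one_div_le_one_div_of_le (half_pos hd0) (hd ▸ half_norm_le hr θ)).trans (le_of_eq ?_)
    field_simp
  have hn : ‖toHalf (circleMap 0 r θ) + ε‖ ≤ ‖toHalf (circleMap 0 r θ)‖ + ε :=
    (norm_add_le _ _).trans (by rw [Complex.norm_real, Real.norm_of_nonneg h0])
  have h8 : 1 + ‖toHalf (circleMap 0 r θ) + ε‖ ≤ 8 / d := by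
    have : 1 ≤ 2 / d := (le_div_iff₀ hd0).2 (by linarith)
    have e : 8 / d = 4 * (2 / d) := by ring
    linarith
  refine (Real.log_le_log (by positivity) h8).trans (le_of_eq ?_)
  rw [Real.log_div (by norm_num) hd0.ne', sing, ← hd]
  ring

theorem sing_ge (θ : ℝ) : -1 ≤ sing θ := by
  rw [sing, neg_le_neg_iff]
  rcases (norm_nonneg (circleMap 0 1 θ - 1)).eq_or_lt with h | h
  · rw [← h, Real.log_zero]; norm_num
  · linarith [Real.log_le_sub_one_of_pos h, norm_sub_one_le θ]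

/-- `1 + |s|` dominates `ζ₁` on `re s ≥ 1/2`. -/
theorem log_norm_zeta₁_le {s : ℂ} (hs : 1 / 2 ≤ s.re) :
    Real.log ‖riemannZeta₁ s‖ ≤ Real.log 4 + 2 * Real.log (1 + ‖s‖) := by
  have hl : 0 ≤ Real.log 4 + 2 * Real.log (1 + ‖s‖) := add_nonneg (Real.log_nonneg (by norm_num))
    (mul_nonneg two_pos.le (Real.log_nonneg (by linarith [norm_nonneg s])))
  rcases (norm_nonneg (riemannZeta₁ s)).eq_or_lt with h | h
  · rwa [← h, Real.log_zero]
  have hb : ‖riemannZeta₁ s‖ ≤ 4 * (1 + ‖s‖) ^ 2 := by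
    rw [FA.CycloGrowth.riemannZeta₁_eq (by linarith)]
    refine (norm_sub_le _ _).trans ?_
    rw [norm_mul, norm_mul]
    have h2 : ‖FA.CycloGrowth.fracInt s‖ ≤ 2 := (FA.CycloGrowth.norm_fracInt_le (by linarith)).trans
      (by rw [div_le_iff₀ (by linarith)]; linarith)
    have h3 : ‖s - 1‖ ≤ ‖s‖ + 1 := (norm_sub_le _ _).trans (by rw [norm_one])
    calc ‖s‖ + ‖s - 1‖ * ‖s‖ * ‖FA.CycloGrowth.fracInt s‖ ≤ ‖s‖ + (‖s‖ + 1) * ‖s‖ * 2 := by gcongr
      _ ≤ _ := by nlinarith [norm_nonneg s]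
  calc Real.log ‖riemannZeta₁ s‖ ≤ Real.log (4 * (1 + ‖s‖) ^ 2) := Real.log_le_log h hb
    _ = _ := by rw [Real.log_mul (by norm_num) (by positivity), Real.log_pow]; norm_num

/-- The angle of the height `t`. -/
def angle (t : ℝ) : ℝ := π - 2 * Real.arctan (2 * t)

theorem circle_angle (t : ℝ) : toHalf (circleMap 0 1 (angle t)) = 1 / 2 + t * I := by
  obtain ⟨a, ha⟩ : ∃ a, a = Real.arctan (2 * t) := ⟨_, rfl⟩
  obtain ⟨Q, hQ⟩ : ∃ Q, Q = √(1 + (2 * t) ^ 2) := ⟨_, rfl⟩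
  have hQ0 : 0 < Q := hQ ▸ by positivity
  have hQ2 : (Q : ℂ) ^ 2 = 1 + (2 * (t : ℂ)) ^ 2 := by
    rw [← Complex.ofReal_pow, hQ, Real.sq_sqrt (by positivity)]; push_cast; ring
  have hc : cexp (-(a : ℂ) * I) = (1 - 2 * t * I) / Q := by
    rw [Complex.exp_mul_I, Complex.cos_neg, Complex.sin_neg, ← Complex.ofReal_cos,
      ← Complex.ofReal_sin, ha, Real.cos_arctan, Real.sin_arctan, ← hQ]
    push_cast
    ring
  have hz : circleMap 0 1 (angle t) = -((1 - 2 * t * I) / Q) ^ 2 := by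
    rw [circleMap, angle, ← ha, ← hc, ← Complex.exp_nat_mul]
    push_cast
    rw [show (((π : ℂ) - 2 * a) * I) = π * I + 2 * (-a * I) by ring, Complex.exp_add,
      Complex.exp_pi_mul_I]
    ring_nf
  have hQC : (Q : ℂ) ≠ 0 := Complex.ofReal_ne_zero.2 hQ0.ne'
  rw [toHalf, hz]
  refine inv_eq_of_mul_eq_one_right ?_
  field_simp
  linear_combination (1 + 2 * (t : ℂ) * I - 2) * hQ2 +
    (-4 * (t : ℂ) ^ 2 + 8 * (t : ℂ) ^ 3 * I) * I_mul_I

theorem angle_image : angle '' univ = Ioo 0 (2 * π) := by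
  ext θ
  constructor
  · rintro ⟨t, -, rfl⟩
    have h1 := Real.neg_pi_div_two_lt_arctan (2 * t)
    have h2 := Real.arctan_lt_pi_div_two (2 * t)
    exact ⟨by rw [angle]; linarith, by rw [angle]; linarith⟩
  · intro hθ
    refine ⟨Real.tan ((π - θ) / 2) / 2, mem_univ _, ?_⟩
    rw [angle, mul_div_cancel₀ _ two_ne_zero, Real.arctan_tan (by linarith [hθ.2])
      (by linarith [hθ.1])]
    ring

theorem angle_injective : Function.Injective angle := fun x y h => by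
  rw [angle, angle] at h
  have := Real.arctan_strictMono.injective (a₁ := 2 * x) (a₂ := 2 * y) (by linarith)
  linarith

theorem hasDerivAt_angle (t : ℝ) : HasDerivAt angle (-(1 / (1 / 4 + t ^ 2))) t := by
  have h := ((((hasDerivAt_id t).const_mul 2).arctan).const_mul 2).const_sub π
  refine h.congr_deriv ?_
  simp only [id, mul_one]
  field_simp
  ring

/-- **The change of variable.** -/
theorem integrable_comp_iff (F : ℂ → ℝ) :
    Integrable (fun θ => F (bd θ)) circ ↔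
      Integrable fun t : ℝ => F (1 / 2 + t * I) / (1 / 4 + t ^ 2) := by
  rw [circ, ← restrict_Ioo_eq_restrict_Ioc, ← angle_image]
  refine (integrableOn_image_iff_integrableOn_abs_deriv_smul MeasurableSet.univ
    (fun t _ => (hasDerivAt_angle t).hasDerivWithinAt) angle_injective.injOn _).trans ?_
  rw [integrableOn_univ]
  refine integrable_congr (Eventually.of_forall fun t => ?_)
  simp only [bd, circle_angle, abs_neg, smul_eq_mul]
  rw [abs_of_pos (by positivity)]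
  ring

theorem integral_comp_eq (F : ℂ → ℝ) :
    ∫ θ, F (bd θ) ∂circ = ∫ t : ℝ, F (1 / 2 + t * I) / (1 / 4 + t ^ 2) := by
  rw [circ, ← restrict_Ioo_eq_restrict_Ioc, ← angle_image,
    integral_image_eq_integral_abs_deriv_smul MeasurableSet.univ
    (fun t _ => (hasDerivAt_angle t).hasDerivWithinAt) angle_injective.injOn, setIntegral_univ]
  refine integral_congr_ae (Eventually.of_forall fun t => ?_)
  simp only [bd, circle_angle, abs_neg, smul_eq_mul]
  rw [abs_of_pos (by positivity)]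
  ring

end FA.BalazardSaiasYor

end
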