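import Fermat.Agent.BalazardSaiasYor.Circle
import Fermat.Agent.NymanBeurling.Hard
import Mathlib.Analysis.Complex.JensenFormula

/-!
# The lower bound

Jensen's formula on the circles of radius `r < 1` and Fatou's lemma as `r → 1`.
-/

set_option autoImplicit false

noncomputable section

open MeasureTheory Filter Set Complex Metric
open scoped Real Topology ENNReal

namespace FA.BalazardSaiasYor

/-- `log |ζ₁|` on the boundary. -/
def logBd (θ : ℝ) : ℝ := Real.log ‖riemannZeta₁ (bd θ)‖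

/-- The majorant. -/
def maj (θ : ℝ) : ℝ := Real.log 4 + 2 * (Real.log 8 + sing θ)

theorem integrable_maj : Integrable maj circ := by
  have : IsFiniteMeasure circ := by rw [circ]; infer_instance
  exact (integrable_const _).add (((integrable_const _).add integrable_sing).const_mul 2)

theorem maj_nonneg (θ : ℝ) : 0 ≤ maj θ := by
  have h1 : 1 ≤ Real.log 8 := by
    have h := Real.log_two_gt_d9
    rw [show (8 : ℝ) = 2 ^ 3 by norm_num, Real.log_pow]
    push_cast
    linarith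
  have h2 : 0 ≤ Real.log 4 := Real.log_nonneg (by norm_num)
  rw [maj]
  linarith [sing_ge θ]

theorem analyticAt_disc {ε : ℝ} {z : ℂ} (hz : z ≠ 1) :
    AnalyticAt ℂ (fun w : ℂ => riemannZeta₁ (toHalf w + ε)) z := by
  refine (differentiable_riemannZeta₁.analyticAt _).fun_comp ?_
  unfold toHalf
  exact ((analyticAt_const.sub analyticAt_id).inv (sub_ne_zero.2 hz.symm)).add analyticAt_const

theorem analyticOnNhd_disc (ε : ℝ) {r : ℝ} (hr : 0 < r) (hr1 : r < 1) :
    AnalyticOnNhd ℂ (fun w : ℂ => riemannZeta₁ (toHalf w + ε)) (closedBall 0 |r|) := fun z hz =>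
  analyticAt_disc fun h => by
    rw [abs_of_pos hr, mem_closedBall_zero_iff, h, norm_one] at hz
    linarith

theorem integral_radius (ε : ℝ) {r : ℝ} (hr : 0 < r) (hr1 : r < 1) :
    Integrable (fun θ => Real.log ‖riemannZeta₁ (toHalf (circleMap 0 r θ) + ε)‖) circ ∧
      ∫ θ, Real.log ‖riemannZeta₁ (toHalf (circleMap 0 r θ) + ε)‖ ∂circ =
        2 * π * Real.circleAverage (fun w : ℂ => Real.log ‖riemannZeta₁ (toHalf w + ε)‖) 0 r := by
  have h := ((analyticOnNhd_disc ε hr hr1).mono sphere_subset_closedBall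
    ).meromorphicOn.circleIntegrable_log_norm
  rw [CircleIntegrable, intervalIntegrable_iff_integrableOn_Ioc_of_le
    (by positivity : (0 : ℝ) ≤ 2 * π)] at h
  refine ⟨h, ?_⟩
  rw [Real.circleAverage_def, smul_eq_mul, ← mul_assoc, mul_inv_cancel₀ (by positivity), one_mul,
    intervalIntegral.integral_of_le (by positivity : (0 : ℝ) ≤ 2 * π)]
  rfl

theorem toHalf_zero : toHalf 0 = 1 := by simp [toHalf]

/-- **Jensen.** -/
theorem average_ge {r : ℝ} (hr : 0 < r) (hr1 : r < 1) :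
    0 ≤ Real.circleAverage (fun w : ℂ => Real.log ‖riemannZeta₁ (toHalf w + (0 : ℝ))‖) 0 r ∧
      ∀ z, z ≠ 0 → ‖z‖ ≤ r → riemannZeta₁ (toHalf z + (0 : ℝ)) = 0 →
        Real.log (r / ‖z‖) ≤
          Real.circleAverage (fun w : ℂ => Real.log ‖riemannZeta₁ (toHalf w + (0 : ℝ))‖) 0 r := by
  have ha := analyticOnNhd_disc 0 hr hr1
  have hc : riemannZeta₁ (toHalf 0 + (0 : ℝ)) = 1 := by
    rw [toHalf_zero, Complex.ofReal_zero, add_zero, riemannZeta₁_one]
  have h := AnalyticOnNhd.circleAverage_log_norm hr.ne' ha (by simp only [hc]; exact one_ne_zero)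
  simp only [hc, norm_one, Real.log_one, add_zero, zero_sub, norm_neg] at h
  obtain ⟨D, hD⟩ : ∃ D : ℂ → ℝ, D = fun u =>
      (MeromorphicOn.divisor (fun w : ℂ => riemannZeta₁ (toHalf w + (0 : ℝ)))
        (closedBall 0 |r|) u : ℝ) *
        Real.log (r * ‖u‖⁻¹) := ⟨_, rfl⟩
  have hfin : (Function.support D).Finite := by
    refine ((MeromorphicOn.divisor (fun w : ℂ => riemannZeta₁ (toHalf w + (0 : ℝ)))
      (closedBall (0 : ℂ) |r|)).finiteSupport
      (isCompact_closedBall _ _)).subset fun u hu => ?_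
    rw [hD] at hu
    intro h0
    exact hu (mul_eq_zero_of_left (Int.cast_eq_zero.2 h0) _)
  have hnn : ∀ u, 0 ≤ D u := fun u => by
    rw [hD]
    by_cases hu : u ∈ closedBall (0 : ℂ) |r|
    · refine mul_nonneg (Int.cast_nonneg (MeromorphicOn.AnalyticOnNhd.divisor_nonneg ha u)) ?_
      rcases eq_or_ne u 0 with rfl | h0
      · simp
      · refine Real.log_nonneg ?_
        rw [← div_eq_mul_inv, le_div_iff₀ (norm_pos_iff.2 h0), one_mul]
        simpa [abs_of_pos hr] using hu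
    · simp [Function.locallyFinsuppWithin.apply_eq_zero_of_notMem _ hu]
  rw [h]
  refine ⟨finsum_nonneg fun u => ?_, fun z hz0 hzr hzero => ?_⟩
  · simpa [hD] using hnn u
  have hz : z ∈ closedBall (0 : ℂ) |r| := by simpa [abs_of_pos hr] using hzr
  have hord : 1 ≤ MeromorphicOn.divisor (fun w : ℂ => riemannZeta₁ (toHalf w + (0 : ℝ)))
      (closedBall (0 : ℂ) |r|) z := by
    rw [MeromorphicOn.AnalyticOnNhd.divisor_apply ha hz]
    have hne : analyticOrderAt (fun w : ℂ => riemannZeta₁ (toHalf w + (0 : ℝ))) z ≠ ⊤ :=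
      AnalyticOnNhd.analyticOrderAt_ne_top_of_isPreconnected ha
        (convex_closedBall _ _).isPreconnected
        (mem_closedBall_self (abs_nonneg _)) hz
        (by rw [(ha 0 (mem_closedBall_self (abs_nonneg _))).analyticOrderAt_eq_zero.2
          (by simp only [hc]; exact one_ne_zero)]; exact ENat.zero_ne_top)
    have hpos : analyticOrderAt (fun w : ℂ => riemannZeta₁ (toHalf w + (0 : ℝ))) z ≠ 0 :=
      fun h' => (ha z hz).analyticOrderAt_eq_zero.1 h' hzero
    obtain ⟨n, hn⟩ := ENat.ne_top_iff_exists.1 hne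
    rw [← hn] at hpos ⊢
    simp only [ENat.map_natCast, WithTop.untop₀_coe]
    exact_mod_cast Nat.one_le_iff_ne_zero.2 (by exact_mod_cast hpos)
  calc Real.log (r / ‖z‖) ≤ D z := by
        rw [hD, div_eq_mul_inv]
        refine le_mul_of_one_le_left (Real.log_nonneg ?_) (Int.cast_one_le_of_pos (by omega))
        rw [← div_eq_mul_inv, le_div_iff₀ (norm_pos_iff.2 hz0), one_mul]
        exact hzr
    _ ≤ ∑ᶠ u, D u := single_le_finsum z hfin hnn
    _ = _ := by simp only [hD]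

theorem ae_bd_ne_zero : ∀ᵐ θ ∂circ, riemannZeta₁ (bd θ) ≠ 0 := by
  have hc : ({ρ : ℂ | FA.RiemannMangoldt.xiFn ρ = 0}).Countable := by
    refine (countable_iUnion fun k : ℕ =>
      (FA.ExplicitFormula.finite_bounded_zeros k).countable).mono fun ρ hρ => ?_
    exact mem_iUnion.2 ⟨⌈|ρ.im|⌉₊, hρ, Nat.le_ceil _⟩
  have hS : ({θ : ℝ | θ ∈ Ioo 0 (2 * π) ∧ riemannZeta₁ (bd θ) = 0}).Countable := by
    refine MapsTo.countable_of_injOn (f := bd) (t := {ρ : ℂ | FA.RiemannMangoldt.xiFn ρ = 0})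
      (fun θ hθ => ?_) (fun x hx y hy hxy => ?_) hc
    · show FA.RiemannMangoldt.xiFn (bd θ) = 0
      rw [FA.RiemannMangoldt.xiFn_eq (by rw [bd_re hθ.1]; norm_num), hθ.2, mul_zero, zero_div]
    · refine injOn_circleMap_of_abs_sub_le' (a := 0) (b := 2 * π) (c := 0) (R := 1) one_ne_zero
        (by simp) ⟨hx.1.1.le, hx.1.2⟩ ⟨hy.1.1.le, hy.1.2⟩ ?_
      exact sub_right_injective (inv_injective hxy)
  filter_upwards [ae_ne, ae_restrict_of_ae (hS.ae_notMem volume)] with θ h1 h2 h0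
  exact h2 ⟨h1, h0⟩

theorem continuousAt_toHalf_circle {θ : ℝ} (hθ : θ ∈ Ioo 0 (2 * π)) (ε : ℝ) :
    ContinuousAt (fun r : ℝ => riemannZeta₁ (toHalf (circleMap 0 r θ) + ε)) 1 := by
  have hc : ContinuousAt (fun r : ℝ => circleMap 0 r θ) 1 := by
    unfold circleMap
    fun_prop
  have hg : ContinuousAt (fun r : ℝ => (1 - circleMap 0 r θ)⁻¹ + (ε : ℂ)) 1 :=
    ((continuousAt_const.sub hc).inv₀ (sub_ne_zero.2 (circle_ne_one hθ).symm)).add
      continuousAt_const
  exact differentiable_riemannZeta₁.continuous.continuousAt.comp' hg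

/-- The radii. -/
def rad (k : ℕ) : ℝ := 1 - 1 / ((k : ℝ) + 2)

theorem rad_mem (k : ℕ) : 1 / 2 ≤ rad k ∧ rad k < 1 := by
  have h1 : 1 / ((k : ℝ) + 2) ≤ 1 / 2 :=
    one_div_le_one_div_of_le two_pos (le_add_of_nonneg_left (Nat.cast_nonneg k))
  have h2 : 0 < 1 / ((k : ℝ) + 2) := by positivity
  rw [rad]
  exact ⟨by linarith, by linarith⟩

theorem tendsto_rad : Tendsto rad atTop (𝓝 1) := by
  have h : Tendsto (fun k : ℕ => 1 / ((k : ℝ) + 2)) atTop (𝓝 0) := by
    simp only [one_div]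
    exact tendsto_inv_atTop_zero.comp
      (tendsto_atTop_add_const_right _ _ tendsto_natCast_atTop_atTop)
  show Tendsto (fun k : ℕ => 1 - 1 / ((k : ℝ) + 2)) atTop (𝓝 1)
  simpa using h.const_sub (1 : ℝ)

/-- **The bound on the boundary**, from a bound for all large radii. -/
theorem boundary_bound {m : ℝ} {k₀ : ℕ} (hm : ∀ k, k₀ ≤ k → m ≤
    Real.circleAverage (fun w : ℂ => Real.log ‖riemannZeta₁ (toHalf w + (0 : ℝ))‖) 0 (rad k)) :
    Integrable logBd circ ∧ 2 * π * m ≤ ∫ θ, logBd θ ∂circ := by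
  obtain ⟨X, hX⟩ : ∃ X : ℕ → ℝ → ℝ, X = fun k θ => maj θ -
      Real.log ‖riemannZeta₁ (toHalf (circleMap 0 (rad (k + k₀)) θ) + (0 : ℝ))‖ := ⟨_, rfl⟩
  have hrad : ∀ k, 0 < rad k := fun k => by linarith [(rad_mem k).1]
  have hint : ∀ k, Integrable (X k) circ := fun k => hX ▸
    integrable_maj.sub (integral_radius 0 (hrad _) (rad_mem _).2).1
  have hnn : ∀ k, 0 ≤ᵐ[circ] X k := fun k => by
    filter_upwards [ae_ne] with θ hθ
    have hn : ‖circleMap 0 (rad (k + k₀)) θ‖ < 1 := by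
      rw [norm_circleMap_zero, abs_of_pos (hrad _)]; exact (rad_mem _).2
    have h1 := log_norm_zeta₁_le (s := toHalf (circleMap 0 (rad (k + k₀)) θ) + (0 : ℝ))
      (by rw [Complex.ofReal_zero, add_zero]; exact (half_lt_re hn).le)
    have h2 := log_one_add_le (r := rad (k + k₀)) (by linarith [(rad_mem (k + k₀)).1])
      hθ le_rfl zero_le_one
    rw [hX, Pi.zero_apply, sub_nonneg, maj]
    linarith
  have hB : ∀ k, ∫ θ, X k θ ∂circ ≤ ∫ θ, maj θ ∂circ - 2 * π * m := fun k => by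
    obtain ⟨h1, h2⟩ := integral_radius 0 (hrad (k + k₀)) (rad_mem _).2
    simp only [hX]
    rw [integral_sub integrable_maj h1, h2]
    have := mul_le_mul_of_nonneg_left (hm (k + k₀) le_add_self) (by positivity : 0 ≤ 2 * π)
    linarith
  have hlim : ∀ᵐ θ ∂circ, Tendsto (fun k => X k θ) atTop (𝓝 (maj θ - logBd θ)) := by
    filter_upwards [ae_ne, ae_bd_ne_zero] with θ hθ hne
    have h1 := (continuousAt_toHalf_circle hθ 0).tendsto.comp
      (tendsto_rad.comp (tendsto_add_atTop_nat k₀))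
    simp only [Complex.ofReal_zero, add_zero] at h1
    rw [hX]
    simp only [Complex.ofReal_zero, add_zero]
    exact tendsto_const_nhds.sub (((continuous_norm.tendsto _).comp h1).log
      (norm_ne_zero_iff.2 hne))
  have hYnn : 0 ≤ᵐ[circ] fun θ => maj θ - logBd θ := by
    filter_upwards [hlim, ae_all_iff.2 hnn] with θ h1 h2
    exact ge_of_tendsto' h1 h2
  have hlint : ∫⁻ θ, ENNReal.ofReal (maj θ - logBd θ) ∂circ ≤
      ENNReal.ofReal (∫ θ, maj θ ∂circ - 2 * π * m) := by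
    calc ∫⁻ θ, ENNReal.ofReal (maj θ - logBd θ) ∂circ
        = ∫⁻ θ, liminf (fun k => ENNReal.ofReal (X k θ)) atTop ∂circ := by
          refine lintegral_congr_ae ?_
          filter_upwards [hlim] with θ h1
          exact ((ENNReal.continuous_ofReal.tendsto _).comp h1).liminf_eq.symm
      _ ≤ liminf (fun k => ∫⁻ θ, ENNReal.ofReal (X k θ) ∂circ) atTop :=
          lintegral_liminf_le' fun k => (hint k).1.aemeasurable.ennreal_ofReal
      _ ≤ _ := by
          refine liminf_le_of_frequently_le' (Frequently.of_forall fun k => ?_)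
          rw [← ofReal_integral_eq_lintegral_ofReal (hint k) (hnn k)]
          exact ENNReal.ofReal_le_ofReal (hB k)
  have hmeas : AEStronglyMeasurable (fun θ => maj θ - logBd θ) circ :=
    aestronglyMeasurable_of_tendsto_ae atTop (fun k => (hint k).1) hlim
  have hY : Integrable (fun θ => maj θ - logBd θ) circ :=
    ⟨hmeas, (hasFiniteIntegral_iff_ofReal hYnn).2 (hlint.trans_lt ENNReal.ofReal_lt_top)⟩
  have hL : Integrable logBd circ := by
    refine (integrable_maj.sub hY).congr (Eventually.of_forall fun θ => ?_)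
    simp only [Pi.sub_apply, sub_sub_cancel]
  refine ⟨hL, ?_⟩
  rw [← ofReal_integral_eq_lintegral_ofReal hY hYnn] at hlint
  have h0 : 0 ≤ ∫ θ, maj θ ∂circ - 2 * π * m :=
    (integral_nonneg_of_ae (hnn 0)).trans (hB 0)
  have h1 := (ENNReal.ofReal_le_ofReal_iff h0).1 hlint
  rw [integral_sub integrable_maj hL] at h1
  linarith

theorem boundary_nonneg : Integrable logBd circ ∧ 0 ≤ ∫ θ, logBd θ ∂circ := by
  obtain ⟨h1, h2⟩ := boundary_bound (m := 0) (k₀ := 0) fun k _ =>
    (average_ge (by linarith [(rad_mem k).1]) (rad_mem k).2).1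
  exact ⟨h1, by linarith⟩

/-- A zero off the line makes the integral positive. -/
theorem boundary_pos {s : ℂ} (hs : 1 / 2 < s.re) (hs1 : s ≠ 1) (hz : riemannZeta₁ s = 0) :
    0 < ∫ θ, logBd θ ∂circ := by
  have hs0 : s ≠ 0 := fun h => by rw [h, Complex.zero_re] at hs; norm_num at hs
  obtain ⟨z, hzdef⟩ : ∃ z, z = 1 - s⁻¹ := ⟨_, rfl⟩
  have hth : toHalf z = s := by rw [toHalf, hzdef, sub_sub_cancel, inv_inv]
  have hz0 : z ≠ 0 := fun h => hs1 (by rw [← hth, h, toHalf_zero])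
  have hz1 : ‖z‖ < 1 := by
    have hne : z ≠ 1 := fun h => hs0 (by rw [← hth, h]; simp [toHalf])
    have h := re_toHalf hne
    rw [hth] at h
    have h2 : 0 < (1 - ‖z‖ ^ 2) / (2 * ‖1 - z‖ ^ 2) := by linarith
    rcases div_pos_iff.1 h2 with h3 | h3
    · nlinarith [norm_nonneg z, h3.1]
    · linarith [h3.2, (by positivity : 0 ≤ 2 * ‖1 - z‖ ^ 2)]
  obtain ⟨r₀, hr₀⟩ : ∃ r₀, r₀ = (1 + ‖z‖) / 2 := ⟨_, rfl⟩
  obtain ⟨k₀, hk₀⟩ := eventually_atTop.1 (tendsto_rad.eventually_const_le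
    (show r₀ < 1 by rw [hr₀]; linarith))
  have hzp := norm_pos_iff.2 hz0
  obtain ⟨-, h2⟩ := boundary_bound (m := Real.log (r₀ / ‖z‖)) (k₀ := k₀) fun k hk => by
    have hr := hk₀ k hk
    refine le_trans (Real.log_le_log (by rw [hr₀]; positivity) ?_)
      ((average_ge (by linarith [(rad_mem k).1]) (rad_mem k).2).2 z hz0
        (le_trans (by rw [hr₀]; linarith) hr)
        (by rw [Complex.ofReal_zero, add_zero, hth, hz]))
    gcongr
  refine lt_of_lt_of_le ?_ h2
  have : 0 < Real.log (r₀ / ‖z‖) :=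
    Real.log_pos ((one_lt_div hzp).2 (by rw [hr₀]; linarith))
  positivity

end FA.BalazardSaiasYor

end
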