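import Fermat.Agent.BalazardSaiasYor.Jensen

/-!
# The upper bound under the Riemann hypothesis

`log |ζ₁ (s + ε)|` is dominated on the closed disc, so its boundary integral is
`2 π log |ζ₁ (1 + ε)|`; the ratio bound on the critical line allows `ε → 0`.
-/

set_option autoImplicit false

noncomputable section

open MeasureTheory Filter Set Complex Metric
open scoped Real Topology ArithmeticFunction.Moebius
open FA.NymanBeurling (zeta₁_ne_zero zeta_half_le)

namespace FA.BalazardSaiasYor

theorem norm_invZeta_le_two {s : ℂ} (hs : 2 ≤ s.re) : ‖FA.VonKoch.invZeta s‖ ≤ 2 := by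
  obtain ⟨-, hv⟩ := FA.VonKoch.moebius_series (s := s) (by linarith)
  rw [← hv]
  refine (tsum_of_norm_bounded hasSum_zeta_two fun n => ?_).trans
    (by nlinarith [Real.pi_lt_d2, Real.pi_pos])
  rcases eq_or_ne n 0 with rfl | hn
  · simp
  · rw [LSeries.term_of_ne_zero hn, norm_div,
      Complex.norm_natCast_cpow_of_pos (Nat.pos_of_ne_zero hn),
      Complex.norm_intCast, ← Real.rpow_natCast]
    have h1 : (1 : ℝ) ≤ n := by exact_mod_cast Nat.one_le_iff_ne_zero.2 hn
    gcongr
    · exact_mod_cast ArithmeticFunction.abs_moebius_le_one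
    · exact_mod_cast hs

theorem exists_inv_bound (h : RiemannHypothesis) {ε : ℝ} (hε : 0 < ε) (hε2 : ε ≤ 1 / 2) :
    ∃ K, ∀ s : ℂ, 1 / 2 + ε ≤ s.re →
      -(K + Real.log (1 + ‖s‖)) ≤ Real.log ‖riemannZeta₁ s‖ := by
  obtain ⟨C, hC, hb⟩ := FA.VonKoch.exists_growth (σ₁ := 1 / 2 + ε) (le_refl (1 / 2 : ℝ))
    (by linarith) (by linarith) (fun s hs => zeta₁_ne_zero h hs) (η := 1) one_pos
  obtain ⟨M, hM⟩ := (IsCompact.reProdIm (isCompact_Icc (a := 1 / 2 + ε) (b := 2))
    (isCompact_Icc (a := (-1 : ℝ)) (b := 1))).exists_bound_of_continuousOn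
    (f := fun s => (riemannZeta₁ s)⁻¹) fun s hs =>
      (differentiable_riemannZeta₁.continuous.continuousAt.inv₀
        (zeta₁_ne_zero h (by linarith [(mem_reProdIm.1 hs).1.1]))).continuousWithinAt
  refine ⟨Real.log (|M| + C + 2), fun s hs => ?_⟩
  have hne := zeta₁_ne_zero h (s := s) (by linarith)
  have hn := norm_nonneg s
  have key : ‖riemannZeta₁ s‖⁻¹ ≤ (|M| + C + 2) * (1 + ‖s‖) := by
    by_cases hbox : s.re ≤ 2 ∧ |s.im| ≤ 1
    · have := (hM s (mem_reProdIm.2 ⟨⟨hs, hbox.1⟩, abs_le.1 hbox.2⟩)).trans (le_abs_self M)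
      rw [norm_inv] at this
      refine this.trans ?_
      nlinarith [abs_nonneg M]
    have hout : 1 ≤ ‖s - 1‖ ∧ ‖FA.VonKoch.invZeta s‖ ≤ (|M| + C + 2) * (1 + ‖s‖) := by
      rcases le_or_gt 2 s.re with h2 | h2
      · refine ⟨le_trans ?_ (re_le_norm _), (norm_invZeta_le_two h2).trans ?_⟩
        · rw [sub_re, one_re]; linarith
        · nlinarith [abs_nonneg M]
      · obtain ⟨-, -, h3⟩ := hb s hs h2.le
        have him : 1 ≤ |s.im| := le_of_lt (not_le.1 fun hh => hbox ⟨h2.le, hh⟩)
        refine ⟨le_trans ?_ (abs_im_le_norm _), h3.trans ?_⟩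
        · simpa using him
        · rw [FA.NymanBeurling.weight_eq_rpow, ← Real.sqrt_eq_rpow]
          have h4 : √(1 + s.im ^ 2) ≤ 1 + ‖s‖ := by
            rw [Real.sqrt_le_left (by linarith)]
            nlinarith [abs_im_le_norm s, sq_abs s.im, abs_nonneg s.im]
          calc C * √(1 + s.im ^ 2) ≤ C * (1 + ‖s‖) := by gcongr
            _ ≤ _ := by nlinarith [abs_nonneg M]
    have he : ‖riemannZeta₁ s‖⁻¹ = ‖FA.VonKoch.invZeta s‖ / ‖s - 1‖ := by
      have : ‖s - 1‖ ≠ 0 := by linarith [hout.1]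
      rw [FA.VonKoch.invZeta, norm_div]
      field_simp
    rw [he]
    exact (div_le_self (norm_nonneg _) hout.1).trans hout.2
  have h5 := Real.log_le_log (inv_pos.2 (norm_pos_iff.2 hne)) key
  rw [Real.log_inv, Real.log_mul (by positivity) (by positivity)] at h5
  linarith

/-- The boundary integral at a positive shift. -/
theorem shifted_integral (h : RiemannHypothesis) {ε : ℝ} (hε : 0 < ε) (hε2 : ε ≤ 1 / 2) :
    ∫ θ, Real.log ‖riemannZeta₁ (bd θ + ε)‖ ∂circ =
      2 * π * Real.log ‖riemannZeta₁ (1 + ε)‖ := by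
  have : IsFiniteMeasure circ := by rw [circ]; infer_instance
  obtain ⟨K, hK⟩ := exists_inv_bound h hε hε2
  have hrad : ∀ k, 0 < rad k := fun k => by linarith [(rad_mem k).1]
  have havg : ∀ k, ∫ θ, Real.log ‖riemannZeta₁ (toHalf (circleMap 0 (rad k) θ) + ε)‖ ∂circ =
      2 * π * Real.log ‖riemannZeta₁ (1 + ε)‖ := fun k => by
    rw [(integral_radius ε (hrad k) (rad_mem k).2).2,
      (analyticOnNhd_disc ε (hrad k) (rad_mem k).2).circleAverage_log_norm_of_ne_zero,
      toHalf_zero]
    intro u hu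
    rw [mem_closedBall_zero_iff, abs_of_pos (hrad k)] at hu
    exact zeta₁_ne_zero h (by
      rw [add_re, ofReal_re]; linarith [half_lt_re (hu.trans_lt (rad_mem k).2)])
  have hconst : Tendsto (fun k =>
      ∫ θ, Real.log ‖riemannZeta₁ (toHalf (circleMap 0 (rad k) θ) + ε)‖ ∂circ) atTop
      (𝓝 (2 * π * Real.log ‖riemannZeta₁ (1 + ε)‖)) :=
    tendsto_const_nhds.congr fun k => (havg k).symm
  refine tendsto_nhds_unique ?_ hconst
  refine tendsto_integral_of_dominated_convergence
    (fun θ => maj θ + (|K| + (Real.log 8 + |sing θ|))) (fun k => ?_) ?_ (fun k => ?_) ?_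
  · exact (integral_radius ε (hrad k) (rad_mem k).2).1.1
  · exact integrable_maj.add ((integrable_const _).add
      ((integrable_const _).add integrable_sing.abs))
  · filter_upwards [ae_ne] with θ hθ
    have hn : ‖circleMap 0 (rad k) θ‖ < 1 := by
      rw [norm_circleMap_zero, abs_of_pos (hrad k)]; exact (rad_mem k).2
    have hre : 1 / 2 + ε ≤ (toHalf (circleMap 0 (rad k) θ) + ε).re := by
      rw [add_re, ofReal_re]; linarith [half_lt_re hn]
    have h1 := log_norm_zeta₁_le (s := toHalf (circleMap 0 (rad k) θ) + ε) (by linarith)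
    have h2 := log_one_add_le (r := rad k) (by linarith [(rad_mem k).1]) hθ hε.le
      (by linarith : ε ≤ 1)
    have h3 := hK _ hre
    have h4 : (0 : ℝ) ≤ Real.log 8 := Real.log_nonneg (by norm_num)
    rw [Real.norm_eq_abs, abs_le]
    constructor
    · linarith [maj_nonneg θ, le_abs_self K, le_abs_self (sing θ)]
    · rw [maj]
      linarith [abs_nonneg K, abs_nonneg (sing θ)]
  · filter_upwards [ae_ne] with θ hθ
    have h1 := ((continuousAt_toHalf_circle hθ ε).tendsto.comp tendsto_rad)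
    exact (((continuous_norm.tendsto _).comp h1).log
      (norm_ne_zero_iff.2 (zeta₁_ne_zero h (by
        show 1 / 2 < (bd θ + ε).re
        rw [add_re, ofReal_re, bd_re hθ]; linarith))))

theorem log_ratio_ge (h : RiemannHypothesis) {ε : ℝ} (h0 : 0 < ε) (h1 : ε ≤ 1 / 16) {θ : ℝ}
    (hθ : θ ∈ Ioo 0 (2 * π)) (hne : riemannZeta₁ (bd θ) ≠ 0) :
    logBd θ - (4 + Real.log 101 + Real.log 8 + |sing θ|) ≤
      Real.log ‖riemannZeta₁ (bd θ + ε)‖ := by
  obtain ⟨t, ht⟩ : ∃ t, t = (bd θ).im := ⟨_, rfl⟩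
  have hb : bd θ = 1 / 2 + t * I := ht ▸ bd_eq hθ
  have hr := zeta_half_le h t h0.le (by linarith)
  rw [← hb, show (((1 / 2 + ε : ℝ) : ℂ) + t * I) = bd θ + ε by rw [hb]; push_cast; ring] at hr
  have hre : (bd θ).re = 1 / 2 := bd_re hθ
  have hs1 : bd θ ≠ 1 := fun h' => by rw [h', one_re] at hre; norm_num at hre
  have hs2 : bd θ + ε ≠ 1 := fun h' => by
    have := congrArg Complex.re h'
    rw [add_re, ofReal_re, hre, one_re] at this
    linarith
  have hz : riemannZeta (bd θ) ≠ 0 := by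
    rw [riemannZeta_eq_inv_sub_mul hs1]
    exact mul_ne_zero (inv_ne_zero (sub_ne_zero.2 hs1)) hne
  have hz' := FA.NymanBeurling.zeta_ne_zero h (s := bd θ + ε)
    (by rw [add_re, ofReal_re, hre]; linarith) hs2
  have l1 := Real.log_le_log (norm_pos_iff.2 hz) hr
  rw [Real.log_mul (Real.exp_pos _).ne' (norm_ne_zero_iff.2 hz'), Real.log_exp] at l1
  have e1 : ∀ s : ℂ, s ≠ 1 → riemannZeta s ≠ 0 →
      Real.log ‖riemannZeta₁ s‖ = Real.log ‖s - 1‖ + Real.log ‖riemannZeta s‖ := fun s h h' => by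
    rw [← Real.log_mul (norm_ne_zero_iff.2 (sub_ne_zero.2 h)) (norm_ne_zero_iff.2 h'), ← norm_mul,
      riemannZeta_eq_inv_sub_mul h, mul_inv_cancel_left₀ (sub_ne_zero.2 h)]
  rw [logBd, e1 _ hs1 hz, e1 _ hs2 hz']
  have hp1 : 0 < ‖bd θ - 1‖ := norm_pos_iff.2 (sub_ne_zero.2 hs1)
  have hp2 : 0 < ‖bd θ + ε - 1‖ := norm_pos_iff.2 (sub_ne_zero.2 hs2)
  have hε' : ‖bd θ - 1‖ ≤ 2 * ‖bd θ + ε - 1‖ := by
    have a1 : (7 : ℝ) / 16 ≤ ‖bd θ + ε - 1‖ := by
      refine le_trans ?_ (abs_re_le_norm _)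
      rw [sub_re, add_re, ofReal_re, hre, one_re, abs_of_neg (by linarith)]
      linarith
    have a2 := norm_sub_le (bd θ + ε - 1) ε
    rw [show bd θ + ε - 1 - ε = bd θ - 1 by ring, Complex.norm_real,
      Real.norm_of_nonneg h0.le] at a2
    linarith
  have l2 := Real.log_le_log hp1 hε'
  rw [Real.log_mul two_ne_zero hp2.ne'] at l2
  have l3 : Real.log (|t| + 100) ≤ Real.log 101 + (Real.log 8 + sing θ) := by
    have h8 := log_one_add_le (r := 1) (θ := θ) (by norm_num) hθ le_rfl zero_le_one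
    rw [Complex.ofReal_zero, add_zero] at h8
    refine le_trans ?_ (add_le_add_right h8 _)
    rw [← Real.log_mul (by norm_num) (by positivity)]
    refine Real.log_le_log (by positivity) ?_
    have : |t| ≤ ‖bd θ‖ := ht ▸ abs_im_le_norm _
    rw [bd] at this
    linarith [norm_nonneg (toHalf (circleMap 0 1 θ)), abs_nonneg t]
  have l4 : 0 ≤ Real.log (|t| + 100) := Real.log_nonneg (by linarith [abs_nonneg t])
  have l5 : ε * (12 + 2 * Real.log (|t| + 100)) ≤ 1 + Real.log (|t| + 100) := by nlinarith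
  linarith [Real.log_two_lt_d9, le_abs_self (sing θ)]

/-- **The Riemann hypothesis makes the integral vanish.** -/
theorem boundary_zero (h : RiemannHypothesis) : ∫ θ, logBd θ ∂circ = 0 := by
  have : IsFiniteMeasure circ := by rw [circ]; infer_instance
  obtain ⟨e, he⟩ : ∃ e : ℕ → ℝ, e = fun k : ℕ => 1 / ((k : ℝ) + 16) := ⟨_, rfl⟩
  have he0 : ∀ k, 0 < e k ∧ e k ≤ 1 / 16 := fun k => by
    rw [he]
    exact ⟨by positivity, one_div_le_one_div_of_le (by norm_num)
      (le_add_of_nonneg_left (Nat.cast_nonneg k))⟩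
  have helim : Tendsto e atTop (𝓝 0) := by
    rw [he]
    simp only [one_div]
    exact tendsto_inv_atTop_zero.comp
      (tendsto_atTop_add_const_right _ _ tendsto_natCast_atTop_atTop)
  have hcast : Tendsto (fun k => (e k : ℂ)) atTop (𝓝 0) := by
    simpa [Function.comp_def] using (Complex.continuous_ofReal.tendsto 0).comp helim
  have hright : Tendsto (fun k => 2 * π * Real.log ‖riemannZeta₁ (1 + e k)‖) atTop (𝓝 0) := by
    have h1 := (differentiable_riemannZeta₁.continuous.tendsto 1).comp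
      (by simpa using hcast.const_add (1 : ℂ))
    rw [riemannZeta₁_one] at h1
    have h2 := ((continuous_norm.tendsto _).comp h1).log (by simp)
    simpa using h2.const_mul (2 * π)
  refine tendsto_nhds_unique ?_ hright
  simp only [← shifted_integral h (he0 _).1 ((he0 _).2.trans (by norm_num))]
  refine tendsto_integral_of_dominated_convergence
    (fun θ => maj θ + (|logBd θ| + (4 + Real.log 101 + Real.log 8 + |sing θ|))) (fun k => ?_) ?_
    (fun k => ?_) ?_
  · refine (Real.measurable_log.comp ?_).aestronglyMeasurable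
    refine (differentiable_riemannZeta₁.continuous.measurable.comp ?_).norm
    exact ((measurable_const.sub (continuous_circleMap 0 1).measurable).inv).add_const _
  · exact integrable_maj.add (boundary_nonneg.1.abs.add
      ((integrable_const _).add integrable_sing.abs))
  · filter_upwards [ae_ne, ae_bd_ne_zero] with θ hθ hne
    have h1 := log_norm_zeta₁_le (s := bd θ + e k)
      (by rw [add_re, ofReal_re, bd_re hθ]; linarith [(he0 k).1])
    have h2 := log_one_add_le (r := 1) (θ := θ) (by norm_num) hθ (he0 k).1.le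
      ((he0 k).2.trans (by norm_num))
    rw [show toHalf (circleMap 0 1 θ) = bd θ from rfl] at h2
    have h3 := log_ratio_ge h (he0 k).1 (he0 k).2 hθ hne
    have h4 : (0 : ℝ) ≤ Real.log 8 := Real.log_nonneg (by norm_num)
    have h5 : (0 : ℝ) ≤ Real.log 101 := Real.log_nonneg (by norm_num)
    rw [Real.norm_eq_abs, abs_le]
    constructor
    · linarith [maj_nonneg θ, neg_abs_le (logBd θ)]
    · rw [maj]
      linarith [abs_nonneg (logBd θ), abs_nonneg (sing θ)]
  · filter_upwards [ae_bd_ne_zero] with θ hne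
    have h1 := (differentiable_riemannZeta₁.continuous.tendsto (bd θ)).comp
      (by simpa using hcast.const_add (bd θ))
    exact ((continuous_norm.tendsto _).comp h1).log (norm_ne_zero_iff.2 hne)

end FA.BalazardSaiasYor

end
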